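import Mathlib
import Fermat.Agent.H78.CFT.LocalInvRows
import Fermat.Agent.H81.Local.B5

/-!
# P-CFT / LC-B5 (row 839): from fields to open subgroups of the local Galois group, v2

`fieldToLocal2 : Fermat.Agent.H78.CFT.FieldToLocal2Statement`
(`FieldCore2Statement → LocalCore2Statement`): the transport of `H1Finite`, `H2OneDim` and
`H3Zero` along the isomorphism `V ≃* Gal(ℚ̄/E)`, `E = ℚ̄^(loc V)`.
-/

set_option autoImplicit false

open IntermediateField

open scoped Pointwise

namespace Fermat.Agent.H68.CFT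

open Fermat.Agent.H13.Cft Fermat.Agent.H78.CFT Fermat.Agent.H81.Local ExtCitation

section Transport

variable {G G' : Type} [Group G] [Group G'] (e : G ≃* G')
  (r : G →* Fermat.Agent.H13.Cft.GQ) (r' : G' →* Fermat.Agent.H13.Cft.GQ)

variable {A : Type}

theorem isLvl₃_comp (h : ∀ g, r' (e g) = r g) {c' : G' × G' × G' → A}
    (hc : IsLvl₃ (pullbackLevelSys r') c') :
    IsLvl₃ (pullbackLevelSys r) (fun x => c' (e x.1, e x.2.1, e x.2.2)) := by
  obtain ⟨N', hN', hinv⟩ := hc
  refine ⟨N'.comap e.toMonoidHom, comap_mem_pullbackLevelSys e r r' h hN', ?_⟩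
  intro g g' g'' n hn m hm l hl
  change c' (e (g * n), e (g' * m), e (g'' * l)) = c' (e g, e g', e g'')
  rw [map_mul, map_mul, map_mul]
  exact hinv (e g) (e g') (e g'') (e n) hn (e m) hm (e l) hl

variable [AddCommGroup A]

theorem isTrivCocycle₃_comp {c' : G' × G' × G' → A} (hc : IsTrivCocycle₃ c') :
    IsTrivCocycle₃ (fun x : G × G × G => c' (e x.1, e x.2.1, e x.2.2)) := by
  intro g h j k
  change c' (e h, e j, e k) - c' (e (g * h), e j, e k) + c' (e g, e (h * j), e k)
    - c' (e g, e h, e (j * k)) + c' (e g, e h, e j) = 0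
  rw [map_mul, map_mul, map_mul]
  exact hc (e g) (e h) (e j) (e k)

theorem isLvlCoboundary₃_comp (h : ∀ g, r' (e g) = r g) {c' : G' × G' × G' → A}
    (hc : IsLvlCoboundary₃ (pullbackLevelSys r') c') :
    IsLvlCoboundary₃ (pullbackLevelSys r) (fun x => c' (e x.1, e x.2.1, e x.2.2)) := by
  obtain ⟨b', hb', hd⟩ := hc
  refine ⟨fun x => b' (e x.1, e x.2), isLvl₂_comp e r r' h hb', ?_⟩
  intro g g' g''
  change b' (e g', e g'') - b' (e (g * g'), e g'') + b' (e g, e (g' * g'')) - b' (e g, e g')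
    = c' (e g, e g', e g'')
  rw [map_mul, map_mul]
  exact hd (e g) (e g') (e g'')

/-- **Transport of `TrivCore2`** along an isomorphism over `G_ℚ`. -/
theorem trivCore2_of_mulEquiv (h : ∀ g, r' (e g) = r g) (p : ℕ)
    (hT : TrivCore2 (pullbackLevelSys r') p) : TrivCore2 (pullbackLevelSys r) p := by
  have h' : ∀ g', r (e.symm g') = r' g' := by
    intro g'
    rw [← h, MulEquiv.apply_symm_apply]
  refine ⟨?_, ?_, ?_⟩
  · -- H1Finite
    have hfin := hT.fin
    unfold H1Finite at hfin ⊢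
    apply (hfin.image (fun χ' : G' → ZMod p => fun g => χ' (e g))).subset
    intro χ hχ
    refine ⟨fun g' => χ (e.symm g'), isLvlHom_comp e.symm r' r h' hχ, ?_⟩
    funext g
    simp
  · -- H2OneDim
    obtain ⟨c₀', hc₀lvl, hc₀coc, hc₀ncob, hc₀gen⟩ := hT.h2
    refine ⟨fun x => c₀' (e x.1, e x.2), isLvl₂_comp e r r' h hc₀lvl,
      isTrivCocycle₂_comp e hc₀coc, ?_, ?_⟩
    · intro hcob
      apply hc₀ncob
      have := isLvlCoboundary₂_comp e.symm r' r h' hcob
      simp only [MulEquiv.apply_symm_apply, Prod.mk.eta] at this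
      exact this
    · intro c hclvl hccoc
      obtain ⟨j, hj⟩ := hc₀gen (fun x => c (e.symm x.1, e.symm x.2))
        (isLvl₂_comp e.symm r' r h' hclvl) (isTrivCocycle₂_comp e.symm hccoc)
      refine ⟨j, ?_⟩
      have := isLvlCoboundary₂_comp e r r' h hj
      simp only [MulEquiv.symm_apply_apply, Prod.mk.eta] at this
      exact this
  · -- H3Zero
    intro c hclvl hccoc
    have h3 := hT.h3 (fun x => c (e.symm x.1, e.symm x.2.1, e.symm x.2.2))
      (isLvl₃_comp e.symm r' r h' hclvl) (isTrivCocycle₃_comp e.symm hccoc)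
    have := isLvlCoboundary₃_comp e r r' h h3
    simp only [MulEquiv.symm_apply_apply, Prod.mk.eta] at this
    exact this

end Transport

/-- **[LC-B5]** the bridge from fields to open subgroups of the local Galois group, v2. -/
theorem fieldToLocal2 : FieldToLocal2Statement := by
  intro hField p _ hp2 q V hV hcyc
  have : Fact (q : ℕ).Prime := ⟨q.2⟩
  have hp : p.Prime := Fact.out
  have : NeZero p := ⟨hp.ne_zero⟩
  obtain ⟨N, ⟨-, -, F, hF, hFN⟩, hNV⟩ := hV
  have := hF
  set r : primeLocalGaloisGroup q →* Fermat.Agent.H81.Local.GQ := primeLocalToGlobal q with hr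
  have hrange : r.range = Dq (q : ℕ) := range_localGaloisToGlobal (q : ℕ)
  have hinj : Function.Injective r := localGaloisToGlobal_injective (q : ℕ)
  set W : Subgroup Fermat.Agent.H81.Local.GQ := V.map r with hWdef
  have hWD : W ≤ Dq (q : ℕ) := by
    rw [← hrange]
    rintro _ ⟨v, _, rfl⟩
    exact ⟨v, rfl⟩
  have hUW : F.fixingSubgroup ⊓ Dq (q : ℕ) ≤ W := by
    rintro σ ⟨hσF, hσD⟩
    rw [← hrange] at hσD
    obtain ⟨τ, rfl⟩ := hσD
    exact ⟨τ, hNV (hFN hσF), rfl⟩
  set E : IntermediateField ℚ (AlgebraicClosure ℚ) := IntermediateField.fixedField W with hEdef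
  have hE : IsLocalFinite (q : ℕ) E := isLocalFinite_fixedField_of_between (q : ℕ) hWD F hUW
  have hfix : E.fixingSubgroup = W := fixingSubgroup_fixedField_of_between (q : ℕ) hWD F hUW
  -- `ζ_p ∈ E`
  obtain ⟨ζ, hζ⟩ := HasEnoughRootsOfUnity.exists_primitiveRoot (AlgebraicClosure ℚ) p
  have hζE : ζ ∈ E := by
    rw [hEdef, IntermediateField.mem_fixedField_iff]
    rintro σ ⟨v, hv, rfl⟩
    exact apply_eq_of_cycloChar_eq_one p (hcyc v hv) hζ.pow_eq_one
  -- the isomorphism `V ≃* Gal(ℚ̄/E)`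
  have hmem : ∀ v : V, (r.comp V.subtype) v ∈ E.fixingSubgroup := by
    intro v
    rw [hfix]
    exact ⟨v, v.2, rfl⟩
  set f : V →* E.fixingSubgroup := (r.comp V.subtype).codRestrict E.fixingSubgroup hmem with hf
  have hbij : Function.Bijective f := by
    constructor
    · intro v v' hvv'
      have h1 : r v = r v' := congrArg Subtype.val hvv'
      exact Subtype.ext (hinj h1)
    · rintro ⟨σ, hσ⟩
      rw [hfix] at hσ
      obtain ⟨v, hv, rfl⟩ := hσ
      exact ⟨⟨v, hv⟩, rfl⟩
  exact trivCore2_of_mulEquiv (MulEquiv.ofBijective f hbij) (r.comp V.subtype)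
    E.fixingSubgroup.subtype (fun _ => rfl) p (hField p hp2 (q : ℕ) E hE ⟨ζ, hζE, hζ⟩)

end Fermat.Agent.H68.CFT
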